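/-
LSb / Main (helper3).  FINAL ASSEMBLY of project LSb:

  `S34lib.UnipTors N p` for every level `N` and every prime `p`

from the two remaining inputs, both stated here as explicit `Prop`s so that the assembly is
checked NOW and the inputs are plugged in by `exact` when they land:

 (I) `InstanceStatement M q` : the modular instance of the nodal datum at level `M * q`
     (`HasNodalInstance (M * q) A` for every valuation ring `A` of `ℚ̄` above `q`), needed only
     for the GOOD pairs: `5 ≤ q`, or `q = 2 ∧ 9 ∣ M`, or `q = 3 ∧ 4 ∣ M`  (with `q ∤ M`, `0 < M`);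
 (T) `TransferStatement p` : the level transfer (`q = 2, 3` are reached from a good level):
     verbatim the statement of `Transfer.unipTors_of_good`.

Everything else (`NodalCtx → UnipotentStatement`, the dictionary `Pic⁰(FBar N) = JZero N`) is
`Final/Tors.lean`.
-/
import Fermat.Agent.S34lib.Unip.Interface
import Fermat.Agent.LSb.Final.Tors

set_option autoImplicit false

noncomputable section

namespace Fermat.Agent.LSb

open ModularCurve Fermat.Agent.S29lib Fermat.Agent.S34lib

/-- `ℚ̄` -/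
local notation "Qb" => AlgebraicClosure ℚ

/-! ### elementary arithmetic of `q ∥ N` -/

/-- `q ∥ N` means `N = M * q` with `q ∤ M`. -/
theorem exists_eq_mul_of_exact_dvd {N q : ℕ} (hqN : q ∣ N) (hq2 : ¬ q ^ 2 ∣ N) :
    ∃ M : ℕ, N = M * q ∧ ¬ q ∣ M := by
  obtain ⟨M, rfl⟩ := hqN
  refine ⟨M, Nat.mul_comm q M, fun h => hq2 ?_⟩
  obtain ⟨M', rfl⟩ := h
  exact ⟨M', by ring⟩

/-- `9 ∣ M * 2 ↔ 9 ∣ M`. -/
theorem nine_dvd_mul_two_iff (M : ℕ) : 9 ∣ M * 2 ↔ 9 ∣ M := by
  constructor
  · intro h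
    exact (Nat.Coprime.dvd_mul_right (by norm_num : Nat.Coprime 9 2)).1 h
  · intro h
    exact Dvd.dvd.mul_right h 2

/-- `4 ∣ M * 3 ↔ 4 ∣ M`. -/
theorem four_dvd_mul_three_iff (M : ℕ) : 4 ∣ M * 3 ↔ 4 ∣ M := by
  constructor
  · intro h
    exact (Nat.Coprime.dvd_mul_right (by norm_num : Nat.Coprime 4 3)).1 h
  · intro h
    exact Dvd.dvd.mul_right h 3

/-- The GOOD pairs `(M, q)`: those at which the nodal instance is constructed directly
(`q ≥ 5`: the supersingular count works at every level `M`; `q = 2` resp. `q = 3`: auxiliary level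
structure `9 ∣ M` resp. `4 ∣ M` kills the extra automorphisms). -/
def GoodPair (M q : ℕ) : Prop :=
  5 ≤ q ∨ (q = 2 ∧ 9 ∣ M) ∨ (q = 3 ∧ 4 ∣ M)

/-- the good-level condition of the transfer, at `N = M * q`, is `GoodPair M q` -/
theorem goodPair_of_mul {M q : ℕ}
    (h : 5 ≤ q ∨ (q = 2 ∧ 9 ∣ M * q) ∨ (q = 3 ∧ 4 ∣ M * q)) : GoodPair M q := by
  rcases h with h | ⟨rfl, h⟩ | ⟨rfl, h⟩
  · exact Or.inl h
  · exact Or.inr (Or.inl ⟨rfl, (nine_dvd_mul_two_iff M).1 h⟩)
  · exact Or.inr (Or.inr ⟨rfl, (four_dvd_mul_three_iff M).1 h⟩)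

/-! ### the two inputs -/

/-- **INPUT (I)**: the modular instance of the nodal datum at level `M * q`, for every valuation
ring of `ℚ̄` above `q`, together with the inertia-compatibility (`HasNodalInstance`,
`Final/Tors.lean`). -/
def InstanceStatement (M q : ℕ) : Prop :=
  ∀ A : ValuationSubring Qb, A.LiesOverPrime q → HasNodalInstance (M * q) A

/-- (U) on torsion at the good levels: the hypothesis of the transfer. -/
def GoodUnip (p : ℕ) : Prop :=
  ∀ (N : ℕ) [NeZero N] (q : ℕ), q.Prime → q ≠ p → q ∣ N → ¬ q ^ 2 ∣ N →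
    (5 ≤ q ∨ (q = 2 ∧ 9 ∣ N) ∨ (q = 3 ∧ 4 ∣ N)) →
    ∀ A : ValuationSubring Qb, A.LiesOverPrime q → ∀ σ ∈ A.inertiaSubgroupIn ℚ, UnipAt N p σ

/-- **INPUT (T)**: the level transfer, verbatim the statement of `Transfer.unipTors_of_good`. -/
def TransferStatement (p : ℕ) : Prop :=
  GoodUnip p → ∀ (N : ℕ) [NeZero N], UnipTors N p

/-! ### the assembly -/

/-- One level, one valuation ring: an instance of the nodal datum gives `(σ - 1)² = 0` on
`J₀(N)[p^∞]` for every `σ` in the inertia group, `p ≠ q`. -/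
theorem unipAt_of_hasNodalInstance {N p q : ℕ} [NeZero N] (hp : p.Prime) (hq : q.Prime)
    (hqp : q ≠ p) {A : ValuationSubring Qb} (hA : A.LiesOverPrime q) (H : HasNodalInstance N A)
    (σ : Qb ≃ₐ[ℚ] Qb) (hσ : σ ∈ A.inertiaSubgroupIn ℚ) : UnipAt N p σ := by
  intro k x hx
  obtain ⟨F₁, F₂, _, _, _, _, D, g, g₁, g₂, C, hI⟩ := H
  exact C.jZero_unipotent σ (hI σ hσ) (p ^ k) (natCast_pow_residue_ne_zero hA hp hq hqp k) x hx

/-- (U) at the good levels from the instances at the good pairs. -/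
theorem goodUnip_of_instance (p : ℕ) (hp : p.Prime)
    (hI : ∀ M q : ℕ, 0 < M → q.Prime → ¬ q ∣ M → GoodPair M q → InstanceStatement M q) :
    GoodUnip p := by
  intro N _ q hq hqp hqN hq2 hgood A hA σ hσ
  obtain ⟨M, rfl, hqM⟩ := exists_eq_mul_of_exact_dvd hqN hq2
  have hM : 0 < M := by
    rcases Nat.eq_zero_or_pos M with h | h
    · exact absurd (h ▸ dvd_zero q) hqM
    · exact h
  exact unipAt_of_hasNodalInstance hp hq hqp hA
    (hI M q hM hq hqM (goodPair_of_mul hgood) A hA) σ hσ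

/-- **FINAL ASSEMBLY of LSb.**  `UnipTors N p` for every level and every prime, from the
instances at the good pairs (I) and the transfer (T). -/
theorem unipTors_of_instance (p : ℕ) (hp : p.Prime) (hT : TransferStatement p)
    (hI : ∀ M q : ℕ, 0 < M → q.Prime → ¬ q ∣ M → GoodPair M q → InstanceStatement M q)
    (N : ℕ) [NeZero N] : UnipTors N p :=
  hT (goodUnip_of_instance p hp hI) N

/-- Variant WITHOUT transfer, when the instance is available at EVERY pair `(M, q)`, `q ∤ M`. -/
theorem unipTors_of_instance_all (p : ℕ) (hp : p.Prime)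
    (hI : ∀ M q : ℕ, 0 < M → q.Prime → ¬ q ∣ M → InstanceStatement M q)
    (N : ℕ) [NeZero N] : UnipTors N p := by
  intro q hq hqp hqN hq2 A hA σ hσ
  obtain ⟨M, rfl, hqM⟩ := exists_eq_mul_of_exact_dvd hqN hq2
  have hM : 0 < M := by
    rcases Nat.eq_zero_or_pos M with h | h
    · exact absurd (h ▸ dvd_zero q) hqM
    · exact h
  exact unipAt_of_hasNodalInstance hp hq hqp hA (hI M q hM hq hqM A hA) σ hσ

end Fermat.Agent.LSb
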