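/-
LSb / MainX (helper3).  FINAL ASSEMBLY of project LSb, with the transfer PLUGGED IN
(`Xfer.unipTors_of_special`, helper1):

  `unipTors : (instances at the good pairs) → ∀ N p, p.Prime → S34lib.UnipTors N p`

so that the ONLY remaining input of S34 is `InstanceStatement M q` (`Main.lean`) for `0 < M`, `q` prime,
`q ∤ M` and `GoodPair M q` (`5 ≤ q`, or `q = 2 ∧ 9 ∣ M`, or `q = 3 ∧ 4 ∣ M`).
-/
import Fermat.Agent.LSb.Main
import Fermat.Agent.LSb.Xfer.Assemble

set_option autoImplicit false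

noncomputable section

namespace Fermat.Agent.LSb

open ModularCurve Fermat.Agent.S29lib Fermat.Agent.S34lib

/-- `ℚ̄` -/
local notation "Qb" => AlgebraicClosure ℚ

/-- The transfer input (T) of `Main.lean`, from `Xfer.unipAt_of_dvd` (helper1). -/
theorem transferStatement (p : ℕ) (hp : p.Prime) : TransferStatement p := by
  intro hG N _ q hq hqp hqN hq2 A hA σ hσ
  obtain ⟨M, hM⟩ := hqN
  have hM0 : M ≠ 0 := by rintro rfl; exact NeZero.ne N (by rw [hM, mul_zero])
  have hqM : ¬ q ∣ M := by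
    rintro ⟨M', rfl⟩
    exact hq2 ⟨M', by rw [hM]; ring⟩
  -- a multiple `M'` of `M` with `q ∤ M'` and `(M', q)` good
  obtain ⟨M', hMM', hM'0, hqM', hsp⟩ :
      ∃ M' : ℕ, M ∣ M' ∧ M' ≠ 0 ∧ ¬ q ∣ M' ∧ GoodPair M' q := by
    by_cases h5 : 5 ≤ q
    · exact ⟨M, dvd_rfl, hM0, hqM, Or.inl h5⟩
    · have hq23 : q = 2 ∨ q = 3 := by
        have h2 := hq.two_le
        have : q ≠ 4 := by rintro rfl; exact absurd hq (by norm_num)
        omega
      rcases hq23 with rfl | rfl
      · refine ⟨9 * M, Dvd.intro_left 9 rfl, mul_ne_zero (by norm_num) hM0, ?_,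
          Or.inr (Or.inl ⟨rfl, Dvd.intro M rfl⟩)⟩
        intro h
        rcases (Nat.Prime.dvd_mul Nat.prime_two).1 h with h | h
        · norm_num at h
        · exact hqM h
      · refine ⟨4 * M, Dvd.intro_left 4 rfl, mul_ne_zero (by norm_num) hM0, ?_,
          Or.inr (Or.inr ⟨rfl, Dvd.intro M rfl⟩)⟩
        intro h
        rcases (Nat.Prime.dvd_mul Nat.prime_three).1 h with h | h
        · norm_num at h
        · exact hqM h
  haveI : NeZero (M' * q) := ⟨mul_ne_zero hM'0 hq.ne_zero⟩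
  have hq2' : ¬ q ^ 2 ∣ M' * q := by
    rintro ⟨c, hc⟩
    apply hqM'
    refine ⟨c, ?_⟩
    have : M' * q = q * c * q := by rw [hc]; ring
    exact Nat.eq_of_mul_eq_mul_right hq.pos this
  have hgood : 5 ≤ q ∨ (q = 2 ∧ 9 ∣ M' * q) ∨ (q = 3 ∧ 4 ∣ M' * q) := by
    rcases hsp with h | ⟨rfl, h⟩ | ⟨rfl, h⟩
    · exact Or.inl h
    · exact Or.inr (Or.inl ⟨rfl, (nine_dvd_mul_two_iff M').2 h⟩)
    · exact Or.inr (Or.inr ⟨rfl, (four_dvd_mul_three_iff M').2 h⟩)
  have h1 : UnipAt (M' * q) p σ :=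
    hG (M' * q) q hq hqp (Dvd.intro_left M' rfl) hq2' hgood A hA σ hσ
  have hdvd : N ∣ M' * q := by rw [hM, mul_comm]; exact mul_dvd_mul_right hMM' q
  exact Xfer.unipAt_of_dvd hdvd hp σ h1

/-- **FINAL THEOREM of LSb** (modulo the instances): `UnipTors N p` for every level `N` and every
prime `p`, from `InstanceStatement M q` at the good pairs. -/
theorem unipTors
    (hI : ∀ M q : ℕ, 0 < M → q.Prime → ¬ q ∣ M → GoodPair M q → InstanceStatement M q)
    (N p : ℕ) [NeZero N] (hp : p.Prime) : UnipTors N p :=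
  unipTors_of_instance p hp (transferStatement p hp) hI N

end Fermat.Agent.LSb
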